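import Fermat.Agent.S16.Asm958
import Fermat.Agent.S16.HeckeTrickDelta6016

/-!
# S16 integration leaf P4 (Hecke trick (A)) — filled with helper6016's `hypA`
-/

set_option autoImplicit false

open UpperHalfPlane CongruenceSubgroup
open scoped MatrixGroups

namespace Fermat.Agent.S16.Int

/-- (A) Hecke trick, in the shape of `Asm958.ub_of_ABC`. -/
theorem leaf_A (p : ℕ) [Fact p.Prime] :
    ∀ ℓ e r : ℕ, ℓ.Prime → r.Prime → r ≠ p → r ≠ ℓ → ¬ ℓ ^ e ∣ r ^ 2 - 1 →
      ¬ Asm958.HasUnitForm p (ℓ ^ e) := by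
  intro ℓ e r hℓ hr hrp hrℓ he ⟨F, a, hF, hcop, ha⟩
  have hp : p.Prime := Fact.out
  have he0 : e ≠ 0 := by
    rintro rfl
    exact he (by simp)
  refine Fermat.Agent.S16.HeckeTrick6016.hypA hp hr hℓ hrp hrℓ he F a hF ?_ ?_
  · intro hdvd
    have h1 : IsCoprime (a 0) ((ℓ : ℤ) ^ e) := by
      have := hcop
      push_cast at this
      exact this
    have h2 : IsCoprime (a 0) (ℓ : ℤ) := (IsCoprime.pow_right_iff (Nat.pos_of_ne_zero he0)).mp h1
    have h3 : IsUnit (ℓ : ℤ) := h2.symm.isUnit_of_dvd' dvd_rfl hdvd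
    have h4 := Int.isUnit_iff.mp h3
    have h5 := hℓ.two_le
    omega
  · intro n hn
    have := ha n (by omega)
    push_cast at this
    exact this

end Fermat.Agent.S16.Int
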