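import Fermat.Agent.S16.Asm958
import Fermat.Agent.S16.HypB2141

/-!
# S16 integration leaf P5 (`V_p`/trace trick (B)) — filled with helper2141's `HypB2141.hypB`
-/

set_option autoImplicit false

open UpperHalfPlane CongruenceSubgroup
open scoped MatrixGroups

namespace Fermat.Agent.S16.Int

/-- (B) `V_p`/trace trick, in the shape of `Asm958.ub_of_ABC`. -/
theorem leaf_B (p : ℕ) [Fact p.Prime] :
    ∀ m : ℕ, m ∣ 24 → Nat.Coprime m p → ¬ m ∣ p + 1 → ¬ Asm958.HasUnitForm p m :=
  fun m hm hmp hdvd => Fermat.Agent.S16.HypB2141.hypB p m hm hmp hdvd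

end Fermat.Agent.S16.Int
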