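import Fermat.Agent.S16.Asm958
import Fermat.Agent.S16.CaseCMain1378

/-!
# S16 integration leaf P6 (case (C): `p ≡ 7 mod 8`) — filled with helper1378's `caseC_noUnit`
-/

set_option autoImplicit false

open UpperHalfPlane CongruenceSubgroup
open scoped MatrixGroups

namespace Fermat.Agent.S16.Int

/-- (C) no integral weight 2 form on `Γ₀(p)` is a unit mod 8 when `p ≡ 7 mod 8`. -/
theorem leaf_C (p : ℕ) [Fact p.Prime] : p % 8 = 7 → ¬ Asm958.HasUnitForm p 8 := by
  intro hp8 ⟨F, a, hF, hcop, ha⟩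
  refine Fermat.Agent.S16.CaseC1378.caseC_noUnit p hp8 F (a 0) ?_ (hF 0) ?_
  · intro hdvd
    have h1 : IsCoprime (a 0) (8 : ℤ) := by
      have := hcop
      push_cast at this
      exact this
    have h3 : IsUnit (2 : ℤ) := h1.symm.isUnit_of_dvd' (by norm_num) hdvd
    have h4 := Int.isUnit_iff.mp h3
    omega
  · intro n hn
    have h1 := ha n (by omega)
    push_cast at h1
    obtain ⟨d, hd⟩ := h1
    refine ⟨d, ?_⟩
    rw [hF n, hd]
    norm_num

end Fermat.Agent.S16.Int
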