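import Fermat.Agent.S16.Trace

/-!
# S16 integration leaf P3 (cusp criterion) — filled with helper4314's `Trace.lean`
-/

set_option autoImplicit false

open UpperHalfPlane CongruenceSubgroup
open scoped MatrixGroups

namespace Fermat.Agent.S16.Int

/-- A weight 2 modular form on `Γ₀(p)` with vanishing constant term is a cusp form. -/
theorem leaf_cusp (p : ℕ) [Fact p.Prime] :
    ∀ G : ModularForm (Gamma0 p : Subgroup (GL (Fin 2) ℝ)) 2,
      (qExpansion 1 G).coeff 0 = 0 →
        ∃ g : CuspForm (Gamma0 p : Subgroup (GL (Fin 2) ℝ)) 2, (⇑g : ℍ → ℂ) = ⇑G :=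
  fun G h0 => Fermat.Agent.S16.Trace.exists_cuspForm_of_coeff_zero p G h0

end Fermat.Agent.S16.Int
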