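import Fermat.Agent.S16.ThetaE.Main

/-!
# S16 integration leaf S16TH (one form in `M₂(Γ₀(p)) ∩ (1 + 2 q ℤ[[q]])`)

Filled with the route-E theta tree (`ThetaE.exists_theta`, skeleton helper2436, sorry-free tree
assembled by helper2374 from the S16TH-E packages).
-/

set_option autoImplicit false

open UpperHalfPlane CongruenceSubgroup
open scoped MatrixGroups

namespace Fermat.Agent.S16.Int

/-- There is a weight 2 modular form on `Γ₀(p)` with `q`-expansion in `1 + 2 q ℤ[[q]]`. -/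
theorem leaf_theta (p : ℕ) [Fact p.Prime] :
    ∃ (H : ModularForm (Gamma0 p : Subgroup (GL (Fin 2) ℝ)) 2) (b : ℕ → ℤ),
      (qExpansion 1 H).coeff 0 = 1 ∧ ∀ n, n ≠ 0 → (qExpansion 1 H).coeff n = 2 * (b n : ℂ) := by
  obtain ⟨H, h0, hH⟩ := Fermat.Agent.S16.ThetaE.exists_theta p Fact.out
  choose b hb using fun n : ℕ => fun hn : 1 ≤ n => hH n hn
  refine ⟨H, fun n => if hn : 1 ≤ n then b n hn else 0, h0, fun n hn => ?_⟩
  have hn1 : 1 ≤ n := Nat.one_le_iff_ne_zero.mpr hn
  simp only [hn1, dite_true]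
  exact hb n hn1

end Fermat.Agent.S16.Int
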