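import Fermat.Agent.S16B.Reduction
import Fermat.Agent.S16.Asm958

/-!
# S16 integration spine (helper880)

`result_of_leaves`: the frozen S16 statement from the five leaf statements, in the exact shapes
of helper958's `Asm958` interface:

* `hcusp`  (P3)  cusp criterion: a weight 2 form on `Γ₀(p)` with `a₀ = 0` is a cusp form;
* `H, b`   (S16TH) one form in `M₂(Γ₀(p)) ∩ (1 + 2 q ℤ[[q]])`;
* `hA`     (P4)  Hecke trick;
* `hB`     (P5)  `V_p`/trace trick;
* `hC`     (P6)  the case `p ≡ 7 mod 8`.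

Algebraic spine: helper1420's `S16B.Reduction.natCard_eq_of_eisCong` (perfect pairing) and
helper958's `Asm958.lb_of_theta`, `Asm958.ub_of_ABC`.
-/

set_option autoImplicit false

open ModularCurve CuspForm UpperHalfPlane CongruenceSubgroup
open scoped MatrixGroups

namespace Fermat.Agent.S16.Int

/-- helper958's congruence predicate implies helper1420's. -/
theorem eisCong_of_hasEisCong {p M : ℕ} (h : Asm958.HasEisCong p M) :
    Fermat.Agent.S16B.Reduction.EisCong p M := by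
  obtain ⟨f, a, ha, hdvd⟩ := h
  refine ⟨f, fun k hk => ⟨a k, ha k, ?_⟩⟩
  have h1 := hdvd k (by omega)
  have h2 : Eis2.sigmaP p k = Fermat.Agent.S16B.Reduction.sigmaP p k := rfl
  rw [h2] at h1
  exact (Int.modEq_iff_dvd.mpr h1).symm

/-- helper1420's congruence predicate implies helper958's. -/
theorem hasEisCong_of_eisCong {p M : ℕ} (h : Fermat.Agent.S16B.Reduction.EisCong p M) :
    Asm958.HasEisCong p M := by
  obtain ⟨f, hf⟩ := h
  choose a ha using fun k : ℕ => fun hk : 1 ≤ k => hf k hk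
  refine ⟨f, fun n => if hn : 1 ≤ n then a n hn else 0, fun n => ?_, fun n hn => ?_⟩
  · by_cases hn : 1 ≤ n
    · simp only [hn, dite_true]
      exact (ha n hn).1
    · have hn0 : n = 0 := by omega
      subst hn0
      simp only [hn, dite_false, Int.cast_zero]
      exact Fermat.Agent.S16B.Reduction.qCoeff_zero_eq f
  · have hn1 : 1 ≤ n := Nat.one_le_iff_ne_zero.mpr hn
    simp only [hn1, dite_true]
    have h2 := (ha n hn1).2
    have h3 := Int.modEq_iff_dvd.mp h2.symm
    have h4 : Eis2.sigmaP p n = Fermat.Agent.S16B.Reduction.sigmaP p n := rfl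
    rw [h4]
    exact h3

/-- The frozen S16 statement from the five leaves. -/
theorem result_of_leaves (p : ℕ) [Fact p.Prime]
    (hcusp : ∀ G : ModularForm (Gamma0 p : Subgroup (GL (Fin 2) ℝ)) 2,
      (qExpansion 1 G).coeff 0 = 0 →
        ∃ g : CuspForm (Gamma0 p : Subgroup (GL (Fin 2) ℝ)) 2, (⇑g : ℍ → ℂ) = ⇑G)
    (hTheta : ∃ (H : ModularForm (Gamma0 p : Subgroup (GL (Fin 2) ℝ)) 2) (b : ℕ → ℤ),
      (qExpansion 1 H).coeff 0 = 1 ∧ ∀ n, n ≠ 0 → (qExpansion 1 H).coeff n = 2 * (b n : ℂ))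
    (hA : ∀ ℓ e r : ℕ, ℓ.Prime → r.Prime → r ≠ p → r ≠ ℓ → ¬ ℓ ^ e ∣ r ^ 2 - 1 →
      ¬ Asm958.HasUnitForm p (ℓ ^ e))
    (hB : ∀ m : ℕ, m ∣ 24 → Nat.Coprime m p → ¬ m ∣ p + 1 → ¬ Asm958.HasUnitForm p m)
    (hC : p % 8 = 7 → ¬ Asm958.HasUnitForm p 8) :
    Nat.card (↥(heckeLatticeAlgebra p ∅) ⧸
        Ideal.map ((latticeRestrictHom p ∅).toRingHom.comp (heckeEvalForms p 2))
          (eisensteinIdeal p)) =
      eisensteinNumerator p := by
  obtain ⟨H, b, hH0, hH⟩ := hTheta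
  exact Fermat.Agent.S16B.Reduction.natCard_eq_of_eisCong p
    (eisCong_of_hasEisCong (Asm958.lb_of_theta hcusp H b hH0 hH))
    (fun M hM h => Asm958.ub_of_ABC hA hB hC hM (hasEisCong_of_eisCong h))

end Fermat.Agent.S16.Int
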